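import Fermat.Agent.ShiftedPrimeOmega.Progressions
import Fermat.Agent.ErdosKac.Main

/-!
# Products of small primes and the shifted primes

For a squarefree `d` of primes not dividing `a`, the primes `p ≤ N` with `d ∣ p + a` are one class
prime to `d`, and the shares `1 / (q - 1)` multiply to `1 / φ d`.
-/

set_option autoImplicit false

noncomputable section

namespace FA.ShiftedPrimeOmega

open Finset Filter
open FA.ErdosKac (primesUpTo mem_primesUpTo recipSum)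
open scoped Topology

/-- The share `1 / (q - 1)` of the primes `p` with `q ∣ p + a`. -/
def share (q : ℕ) : ℝ := ((q : ℝ) - 1)⁻¹

/-- The primes `≤ z` not dividing `a`. -/
def goodPrimes (a : ℤ) (z : ℕ) : Finset ℕ := (primesUpTo z).filter fun q => ¬ (q : ℤ) ∣ a

/-- `|p + a|`. -/
def shifted (a : ℤ) (p : ℕ) : ℕ := ((p : ℤ) + a).natAbs

theorem mem_goodPrimes {a : ℤ} {z q : ℕ} :
    q ∈ goodPrimes a z ↔ q.Prime ∧ q ≤ z ∧ ¬ (q : ℤ) ∣ a := by
  rw [goodPrimes, mem_filter, mem_primesUpTo, and_assoc]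

theorem goodPrimes_mono (a : ℤ) {w z : ℕ} (h : w ≤ z) : goodPrimes a w ⊆ goodPrimes a z :=
  fun _ hq => mem_goodPrimes.2 ⟨(mem_goodPrimes.1 hq).1, (mem_goodPrimes.1 hq).2.1.trans h,
    (mem_goodPrimes.1 hq).2.2⟩

theorem card_goodPrimes_le (a : ℤ) (z : ℕ) : (goodPrimes a z).card ≤ z := by
  refine (card_le_card (t := Icc 1 z) fun q hq => ?_).trans (by simp)
  exact mem_Icc.2 ⟨(mem_goodPrimes.1 hq).1.one_le, (mem_goodPrimes.1 hq).2.1⟩

theorem share_bounds {q : ℕ} (hq : 2 ≤ q) :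
    0 ≤ share q ∧ share q ≤ 1 ∧ share q ≤ 2 * (q : ℝ)⁻¹ ∧ (q : ℝ)⁻¹ ≤ share q ∧
      share q ≤ (q : ℝ)⁻¹ + 2 * ((q : ℝ)⁻¹) ^ 2 := by
  have h : (2 : ℝ) ≤ q := Nat.ofNat_le_cast.2 hq
  have h1 : (0 : ℝ) < (q : ℝ) - 1 := by linarith
  rw [share]
  refine ⟨inv_nonneg.2 h1.le, inv_le_one_of_one_le₀ (by linarith), ?_,
    inv_anti₀ h1 (by linarith), ?_⟩
  · rw [← div_eq_mul_inv, inv_eq_one_div, div_le_div_iff₀ h1 (by linarith)]
    linarith
  · rw [show (q : ℝ)⁻¹ + 2 * ((q : ℝ)⁻¹) ^ 2 = ((q : ℝ) + 2) / (q : ℝ) ^ 2 by field_simp,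
      inv_eq_one_div, div_le_div_iff₀ h1 (by positivity)]
    linarith

theorem sum_share_sq_le (a : ℤ) (z : ℕ) : ∑ q ∈ goodPrimes a z, share q ^ 2 ≤ 4 := by
  have hb := fun q (hq : q ∈ goodPrimes a z) => share_bounds (mem_goodPrimes.1 hq).1.two_le
  refine (sum_le_sum fun q hq => pow_le_pow_left₀ (hb q hq).1 (hb q hq).2.2.1 2).trans ?_
  simp only [mul_pow, ← mul_sum]
  have := FA.ErdosKac.sum_inv_sq_le (goodPrimes a z) fun q hq => (mem_goodPrimes.1 hq).1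
  linarith

/-- The shares sum to `∑_{q ≤ z} 1 / q` up to a constant. -/
theorem abs_shareSum_sub_recipSum_le {a : ℤ} (ha : a ≠ 0) (z : ℕ) :
    |(∑ q ∈ goodPrimes a z, share q) - recipSum z| ≤ 2 + a.natAbs.primeFactors.card := by
  have hb := fun q (hq : q ∈ goodPrimes a z) => share_bounds (mem_goodPrimes.1 hq).1.two_le
  have h1 : ∑ q ∈ goodPrimes a z, (q : ℝ)⁻¹ ≤ ∑ q ∈ goodPrimes a z, share q :=
    sum_le_sum fun q hq => (hb q hq).2.2.2.1
  have h2 : (∑ q ∈ goodPrimes a z, share q) ≤ (∑ q ∈ goodPrimes a z, (q : ℝ)⁻¹) + 2 := by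
    refine (sum_le_sum fun q hq => (hb q hq).2.2.2.2).trans ?_
    rw [sum_add_distrib, ← mul_sum]
    have := FA.ErdosKac.sum_inv_sq_le (goodPrimes a z) fun q hq => (mem_goodPrimes.1 hq).1
    linarith
  have h3 : recipSum z = (∑ q ∈ goodPrimes a z, (q : ℝ)⁻¹) +
      ∑ q ∈ (primesUpTo z).filter (fun q : ℕ => (q : ℤ) ∣ a), (q : ℝ)⁻¹ := by
    rw [recipSum, goodPrimes, add_comm, sum_filter_add_sum_filter_not]
  have h4 : ∑ q ∈ (primesUpTo z).filter (fun q : ℕ => (q : ℤ) ∣ a), (q : ℝ)⁻¹ ≤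
      a.natAbs.primeFactors.card := by
    refine (sum_le_sum (g := fun _ => (1 : ℝ)) fun q hq => inv_le_one_of_one_le₀
      (Nat.one_le_cast.2 (mem_primesUpTo.1 (mem_filter.1 hq).1).1.one_le)).trans ?_
    rw [sum_const, nsmul_one]
    refine Nat.cast_le.2 (card_le_card fun q hq => Nat.mem_primeFactors.2
      ⟨(mem_primesUpTo.1 (mem_filter.1 hq).1).1, Int.natCast_dvd.1 (mem_filter.1 hq).2,
        Int.natAbs_ne_zero.2 ha⟩)
  have h5 : 0 ≤ ∑ q ∈ (primesUpTo z).filter (fun q : ℕ => (q : ℤ) ∣ a), (q : ℝ)⁻¹ :=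
    sum_nonneg fun q _ => by positivity
  rw [abs_le]
  constructor <;> linarith [Nat.cast_nonneg (α := ℝ) a.natAbs.primeFactors.card]

theorem prod_share_eq {a : ℤ} {z : ℕ} {T : Finset ℕ} (hT : T ⊆ goodPrimes a z) :
    ∏ q ∈ T, share q = (((∏ q ∈ T, q).totient : ℕ) : ℝ)⁻¹ := by
  have hp : ∀ q ∈ T, q.Prime := fun q hq => (mem_goodPrimes.1 (hT hq)).1
  have h := Nat.totient_mul_prod_primeFactors (∏ q ∈ T, q)
  rw [Nat.primeFactors_prod hp, mul_comm (∏ q ∈ T, q) (∏ q ∈ T, (q - 1))] at h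
  have h' := Nat.eq_of_mul_eq_mul_right (prod_pos fun q hq => (hp q hq).pos) h
  rw [h', Nat.cast_prod, ← prod_inv_distrib]
  refine prod_congr rfl fun q hq => ?_
  rw [share, Nat.cast_sub (hp q hq).one_le, Nat.cast_one]

theorem gcd_prod_eq_one {a : ℤ} {z : ℕ} {T : Finset ℕ} (hT : T ⊆ goodPrimes a z) :
    Int.gcd (-a) ((∏ q ∈ T, q : ℕ) : ℤ) = 1 := by
  rw [Int.gcd, Int.natAbs_neg, Int.natAbs_natCast]
  refine Nat.Coprime.gcd_eq_one (Nat.Coprime.prod_right fun q hq => ?_)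
  obtain ⟨hp, -, hqa⟩ := mem_goodPrimes.1 (hT hq)
  exact ((hp.coprime_iff_not_dvd).2 fun hd => hqa (Int.natCast_dvd.2 hd)).symm

theorem card_filter_dvd_eq {a : ℤ} {z : ℕ} {T : Finset ℕ} (hT : T ⊆ goodPrimes a z) (N : ℕ) :
    ((primesUpTo N).filter fun p => ∀ q ∈ T, q ∣ shifted a p).card =
      primeClassCount N (∏ q ∈ T, q) (-a) := by
  rw [primeClassCount, primesUpTo, filter_filter]
  refine congrArg card (filter_congr fun p _ => and_congr_right fun _ => ?_)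
  rw [show (-a - (p : ℤ)) = -((p : ℤ) + a) by ring, dvd_neg, Int.natCast_dvd, ← shifted]
  exact ⟨fun h => prod_primes_dvd _ (fun q hq => (mem_goodPrimes.1 (hT hq)).1.prime) h,
    fun h q hq => (dvd_prod_of_mem id hq).trans h⟩

/-- The errors over the sets of `k` primes are among those over all moduli. -/
theorem sum_powersetCard_le {a : ℤ} {N w Q k : ℕ} (hk : w ^ k ≤ Q) :
    ∑ T ∈ (goodPrimes a w).powersetCard k,
        |(((primesUpTo N).filter fun p => ∀ q ∈ T, q ∣ shifted a p).card : ℝ) -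
          (∏ q ∈ T, share q) * recipLogSum N| ≤
      ∑ d ∈ (Icc 1 Q).filter (fun d : ℕ => Int.gcd (-a) d = 1),
        |(primeClassCount N d (-a) : ℝ) - recipLogSum N / d.totient| := by
  have hp : ∀ T ∈ (goodPrimes a w).powersetCard k, ∀ q ∈ T, q.Prime := fun T hT q hq =>
    (mem_goodPrimes.1 ((mem_powersetCard.1 hT).1 hq)).1
  refine le_trans (le_of_eq ?_) (sum_le_sum_of_subset_of_nonneg
    (s := ((goodPrimes a w).powersetCard k).image fun T => ∏ q ∈ T, q) (fun d hd => ?_)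
    fun d _ _ => abs_nonneg _)
  · rw [sum_image fun T hT T' hT' h => by
      rw [← Nat.primeFactors_prod (hp T hT), ← Nat.primeFactors_prod (hp T' hT')]
      exact congrArg Nat.primeFactors h]
    refine sum_congr rfl fun T hT => ?_
    rw [card_filter_dvd_eq (mem_powersetCard.1 hT).1, prod_share_eq (mem_powersetCard.1 hT).1,
      inv_mul_eq_div]
  · obtain ⟨T, hT, rfl⟩ := mem_image.1 hd
    rw [mem_filter, mem_Icc]
    refine ⟨⟨prod_pos fun q hq => (hp T hT q hq).pos, le_trans ?_ hk⟩,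
      gcd_prod_eq_one (mem_powersetCard.1 hT).1⟩
    rw [← (mem_powersetCard.1 hT).2]
    exact prod_le_pow_card _ _ w fun q hq =>
      (mem_goodPrimes.1 ((mem_powersetCard.1 hT).1 hq)).2.1

theorem pow_four_sqrt_sqrt_le (N : ℕ) : (Nat.sqrt (Nat.sqrt N)) ^ 4 ≤ N := by
  have h1 := Nat.sqrt_le' (Nat.sqrt N)
  calc (Nat.sqrt (Nat.sqrt N)) ^ 4 = ((Nat.sqrt (Nat.sqrt N)) ^ 2) ^ 2 := by ring
    _ ≤ (Nat.sqrt N) ^ 2 := Nat.pow_le_pow_left h1 2
    _ ≤ N := Nat.sqrt_le' N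

theorem lt_sqrt_sqrt_succ_pow_four (N : ℕ) : N < (Nat.sqrt (Nat.sqrt N) + 1) ^ 4 := by
  have h1 : Nat.sqrt N + 1 ≤ (Nat.sqrt (Nat.sqrt N) + 1) ^ 2 := Nat.lt_succ_sqrt' (Nat.sqrt N)
  calc N < (Nat.sqrt N + 1) ^ 2 := Nat.lt_succ_sqrt' N
    _ ≤ ((Nat.sqrt (Nat.sqrt N) + 1) ^ 2) ^ 2 := Nat.pow_le_pow_left h1 2
    _ = _ := by ring

theorem le_sqrt_sqrt {N m : ℕ} (h : m ^ 4 ≤ N) : m ≤ Nat.sqrt (Nat.sqrt N) := by
  rw [Nat.le_sqrt', Nat.le_sqrt', ← pow_mul]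
  exact h

theorem sqrt_sqrt_le_rpow (N : ℕ) :
    (Nat.sqrt (Nat.sqrt N) : ℝ) ≤ (N : ℝ) ^ (1 / 4 : ℝ) := by
  have h : ((Nat.sqrt (Nat.sqrt N) : ℝ) ^ 4) ≤ N := by exact_mod_cast pow_four_sqrt_sqrt_le N
  have h2 := Real.rpow_le_rpow (by positivity) h (show (0 : ℝ) ≤ ((4 : ℕ) : ℝ)⁻¹ by positivity)
  rw [Real.pow_rpow_inv_natCast (Nat.cast_nonneg _) (by norm_num)] at h2
  refine h2.trans (le_of_eq ?_)
  norm_num

theorem div_le_recipLogSum {N : ℕ} (hN : 2 ≤ N) : (N : ℝ) / (2 * Real.log N) ≤ recipLogSum N := by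
  have hl : 0 < Real.log N := Real.log_pos (Nat.one_lt_cast.2 (by omega))
  have h2 : (2 : ℝ) ≤ N := Nat.ofNat_le_cast.2 hN
  refine le_trans ?_ (card_nsmul_le_sum (Icc 2 N) _ (Real.log N)⁻¹ fun n hn => ?_)
  · rw [Nat.card_Icc, show N + 1 - 2 = N - 1 by omega, nsmul_eq_mul,
      Nat.cast_sub (by omega : 1 ≤ N), Nat.cast_one, ← div_eq_mul_inv,
      div_le_div_iff₀ (by linarith) hl]
    nlinarith
  · rw [mem_Icc] at hn
    exact inv_anti₀ (Real.log_pos (Nat.one_lt_cast.2 (by omega)))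
      (Real.log_le_log (Nat.cast_pos.2 (by omega)) (Nat.cast_le.2 hn.2))

/-- **The level of distribution**: products of primes up to `N ^ (1/4)`. -/
theorem exists_level {a : ℤ} : ∃ C : ℝ, 0 < C ∧ ∀ᶠ N : ℕ in atTop,
    (∀ w k : ℕ, w ^ k ≤ Nat.sqrt (Nat.sqrt N) → ∑ T ∈ (goodPrimes a w).powersetCard k,
      |(((primesUpTo N).filter fun p => ∀ q ∈ T, q ∣ shifted a p).card : ℝ) -
        (∏ q ∈ T, share q) * recipLogSum N| ≤ C * ((N : ℝ) / Real.log N ^ 6)) ∧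
    |((primesUpTo N).card : ℝ) - recipLogSum N| ≤ C * ((N : ℝ) / Real.log N ^ 6) ∧
    (N : ℝ) / (4 * Real.log N) ≤ (primesUpTo N).card := by
  obtain ⟨B, C, hC, hBV⟩ := exists_bv_count 6
  refine ⟨C, hC, ?_⟩
  filter_upwards [eventually_ge_atTop 3,
    BombieriVinogradov.eventually_log_pow_le B (show (0 : ℝ) < 1 / 4 by norm_num),
    BombieriVinogradov.eventually_log_ge (max 1 (4 * C))] with N hN hlB hl
  obtain ⟨L, hL⟩ : ∃ L, L = Real.log N := ⟨_, rfl⟩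
  rw [← hL] at hlB hl ⊢
  have hl1 : 1 ≤ L := le_of_max_le_left hl
  have hN0 : (0 : ℝ) < N := Nat.cast_pos.2 (by omega)
  have hQ : ((Nat.sqrt (Nat.sqrt N) : ℕ) : ℝ) ≤ Real.sqrt N / L ^ B := by
    rw [le_div_iff₀ (by positivity)]
    refine (mul_le_mul (sqrt_sqrt_le_rpow N) hlB (by positivity) (by positivity)).trans
      (le_of_eq ?_)
    rw [← Real.rpow_add hN0, Real.sqrt_eq_rpow]
    norm_num
  have hlev : ∀ w k : ℕ, w ^ k ≤ Nat.sqrt (Nat.sqrt N) → ∑ T ∈ (goodPrimes a w).powersetCard k,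
      |(((primesUpTo N).filter fun p => ∀ q ∈ T, q ∣ shifted a p).card : ℝ) -
        (∏ q ∈ T, share q) * recipLogSum N| ≤ C * ((N : ℝ) / L ^ 6) := fun w k hk =>
    (sum_powersetCard_le hk).trans (hL ▸ hBV N hN _ (hL ▸ hQ) (-a))
  have h0 : |((primesUpTo N).card : ℝ) - recipLogSum N| ≤ C * ((N : ℝ) / L ^ 6) := by
    have h := hlev 1 0 (by simpa using le_sqrt_sqrt (m := 1) (show 1 ^ 4 ≤ N by omega))
    simpa using h
  refine ⟨hlev, h0, ?_⟩
  have h1 : C * ((N : ℝ) / L ^ 6) ≤ (N : ℝ) / (4 * L) := by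
    rw [mul_div_assoc', div_le_div_iff₀ (by positivity) (by positivity)]
    have h2 : 4 * C ≤ L ^ 5 := (le_of_max_le_right hl).trans (le_self_pow₀ hl1 (by norm_num))
    have h3 := mul_le_mul_of_nonneg_left h2 (show 0 ≤ (N : ℝ) * L by positivity)
    linarith
  have h4 := div_le_recipLogSum (show 2 ≤ N by omega)
  rw [← hL] at h4
  have h5 : (N : ℝ) / (2 * L) = 2 * ((N : ℝ) / (4 * L)) := by ring
  linarith [(abs_le.1 h0).1]

end FA.ShiftedPrimeOmega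

end
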