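import Fermat.Agent.ShiftedPrimeOmega.Model
import Fermat.Agent.ShiftedPrimeOmega.Shares
import Mathlib.Probability.CDF

/-!
# The Erdős–Kac theorem for shifted primes

The primes up to `exp (log N / log log N)` follow the weighted model up to `≍ √(log log N)` of
them at a time, those up to `N ^ (1/4)` add `O (log log log N)` on average, and the others
boundedly many.
-/

set_option autoImplicit false

noncomputable section

namespace FA.ShiftedPrimeOmega

open Finset Filter
open FA.ErdosKac (primesUpTo mem_primesUpTo recipSum loglog cut tendsto_loglog)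
open FA.PointEK (truncLen)
open scoped Topology

variable {a : ℤ}

theorem card_primesUpTo (N : ℕ) : (primesUpTo N).card = Nat.primeCounting N := by
  rw [← Nat.primesLE_card_eq_primeCounting]
  congr 1
  ext p
  simp [primesUpTo, Nat.primesLE, Nat.mem_primesBelow]
  exact fun hp _ => hp.one_le

theorem tendsto_sqrt_loglog : Tendsto (fun N : ℕ => Real.sqrt (loglog N)) atTop atTop :=
  Real.tendsto_sqrt_atTop.comp tendsto_loglog

/-- The sum of the shares up to the cut is `log log N + o (√(log log N))`. -/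
theorem tendsto_shareSum_cut (ha : a ≠ 0) :
    Tendsto (fun N : ℕ => ((∑ q ∈ goodPrimes a (cut N), share q) - loglog N) /
      Real.sqrt (loglog N)) atTop (𝓝 0) := by
  have h1 : Tendsto (fun N : ℕ => (2 + (a.natAbs.primeFactors.card : ℝ)) / Real.sqrt (loglog N))
      atTop (𝓝 0) := tendsto_const_nhds.div_atTop tendsto_sqrt_loglog
  have h2 := h1.add FA.ErdosKac.tendsto_recipSum_cut.abs
  rw [abs_zero, add_zero] at h2
  refine squeeze_zero_norm (fun N => ?_) h2
  rw [Real.norm_eq_abs, abs_div, abs_of_nonneg (Real.sqrt_nonneg _), abs_div,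
    abs_of_nonneg (Real.sqrt_nonneg _), ← add_div]
  refine div_le_div_of_nonneg_right ?_ (Real.sqrt_nonneg _)
  exact (abs_sub_le _ (recipSum (cut N)) _).trans
    (add_le_add (abs_shareSum_sub_recipSum_le ha (cut N)) le_rfl)

/-- A few of the primes up to the cut stay below `N ^ (1/4)`. -/
theorem eventually_scale (t : ℝ) : ∀ᶠ N : ℕ in atTop,
    (∀ k ≤ truncLen t (loglog N), cut N ^ k ≤ Nat.sqrt (Nat.sqrt N)) ∧
      cut N ≤ Nat.sqrt (Nat.sqrt N) ∧
      ((truncLen t (loglog N) : ℝ) + 1) * 2 ^ truncLen t (loglog N) ≤ Real.log N ^ 2 := by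
  obtain ⟨T, hT⟩ : ∃ T, T = 12 * |t| + 2 := ⟨_, rfl⟩
  filter_upwards [tendsto_loglog.eventually_ge_atTop 4,
    tendsto_sqrt_loglog.eventually_ge_atTop (4 * T), eventually_ge_atTop 2,
    FA.ErdosKac.eventually_cut] with N hx hsx hN hc
  obtain ⟨x, hxdef⟩ : ∃ x, x = loglog N := ⟨_, rfl⟩
  rw [← hxdef] at hx hsx ⊢
  have hT2 : 2 ≤ T := by linarith [abs_nonneg t]
  have hlog : 0 < Real.log N := Real.log_pos (Nat.one_lt_cast.2 (by omega))
  have hexp : Real.exp x = Real.log N := by rw [hxdef, loglog, Real.exp_log hlog]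
  have hK : 4 * (truncLen t x : ℝ) ≤ x := by
    have h1 : (truncLen t x : ℝ) ≤ T * Real.sqrt x := by
      rw [truncLen]
      refine (Nat.ceil_lt_add_one (by positivity)).le.trans ?_
      rw [hT, show (12 * |t| + 2) * Real.sqrt x =
        (12 * |t| + 1) * Real.sqrt x + Real.sqrt x by ring]
      linarith
    have h2 := mul_le_mul_of_nonneg_right hsx (Real.sqrt_nonneg x)
    rw [Real.mul_self_sqrt (by linarith)] at h2
    linarith
  have hpow : ∀ k : ℕ, 4 * (k : ℝ) ≤ x → cut N ^ k ≤ Nat.sqrt (Nat.sqrt N) := fun k hk => by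
    refine le_sqrt_sqrt ?_
    rw [← pow_mul, ← Nat.cast_le (α := ℝ), Nat.cast_pow]
    have hcut : (cut N : ℝ) ≤ Real.exp (Real.log N / x) := by
      rw [cut, hxdef]
      exact Nat.floor_le (Real.exp_pos _).le
    refine (pow_le_pow_left₀ (Nat.cast_nonneg _) hcut (k * 4)).trans ?_
    rw [← Real.exp_nat_mul]
    refine le_of_le_of_eq (Real.exp_le_exp.2 ?_) (Real.exp_log (Nat.cast_pos.2 (by omega)))
    rw [mul_div_assoc', div_le_iff₀ (by linarith), mul_comm (Real.log N)]
    refine mul_le_mul_of_nonneg_right ?_ hlog.le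
    push_cast
    linarith
  refine ⟨fun k hk => hpow k ?_, by simpa using hpow 1 (by push_cast; linarith), ?_⟩
  · exact le_trans (by linarith [(Nat.cast_le (α := ℝ)).2 hk]) hK
  · have h1 : (2 : ℝ) ^ truncLen t x ≤ Real.log N := by
      refine (pow_le_pow_left₀ (by norm_num) (show (2 : ℝ) ≤ Real.exp 1 by
        linarith [Real.exp_one_gt_d9]) _).trans ?_
      rw [← Real.exp_nat_mul, ← hexp, Real.exp_le_exp, mul_one]
      linarith [Nat.cast_nonneg (α := ℝ) (truncLen t x)]
    have h2 : (truncLen t x : ℝ) + 1 ≤ Real.log N := by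
      rw [← hexp]
      linarith [Real.add_one_le_exp x, Nat.cast_nonneg (α := ℝ) (truncLen t x)]
    rw [sq]
    exact mul_le_mul h2 h1 (by positivity) hlog.le

/-- The counts against the shares and the number of primes. -/
theorem exists_count_bound (ha : a ≠ 0) (t : ℝ) : ∃ C : ℝ, ∀ᶠ N : ℕ in atTop,
    0 < (primesUpTo N).card ∧ ∀ k ≤ truncLen t (loglog N),
      ∑ T ∈ (goodPrimes a (cut N)).powersetCard k,
        |(((primesUpTo N).filter fun p => ∀ q ∈ T, q ∣ shifted a p).card : ℝ) -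
          (∏ q ∈ T, share q) * (primesUpTo N).card| ≤
        C * ((primesUpTo N).card / Real.log N ^ 3) := by
  obtain ⟨C, hC, hlev⟩ := exists_level (a := a)
  refine ⟨8 * C, ?_⟩
  filter_upwards [hlev, eventually_scale t, eventually_ge_atTop 3,
    (tendsto_shareSum_cut ha).eventually_le_const one_pos,
    tendsto_sqrt_loglog.eventually_ge_atTop 1] with N ⟨hl, h0, hcard⟩ ⟨hpow, _, _⟩ hN hσ hsx
  obtain ⟨L, hL⟩ : ∃ L, L = Real.log N := ⟨_, rfl⟩
  rw [← hL] at hl h0 hcard ⊢
  have hN0 : (0 : ℝ) < N := Nat.cast_pos.2 (by omega)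
  have hL1 : 1 ≤ L := by
    rw [hL, Real.le_log_iff_exp_le hN0]
    linarith [Real.exp_one_lt_d9, (show (3 : ℝ) ≤ N from mod_cast hN)]
  have hS : 0 < (primesUpTo N).card :=
    Nat.cast_pos.1 (lt_of_lt_of_le (show (0 : ℝ) < N / (4 * L) by positivity) hcard)
  refine ⟨hS, fun k hk => ?_⟩
  obtain ⟨σ, hσdef⟩ : ∃ σ, σ = ∑ q ∈ goodPrimes a (cut N), share q := ⟨_, rfl⟩
  rw [← hσdef, div_le_one (by linarith)] at hσ
  have hsx2 : Real.sqrt (loglog N) ≤ loglog N := by
    have h := Real.mul_self_sqrt (show 0 ≤ loglog N by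
      by_contra h
      rw [Real.sqrt_eq_zero'.2 (not_le.1 h).le] at hsx
      linarith)
    have := mul_le_mul_of_nonneg_right hsx (Real.sqrt_nonneg (loglog N))
    linarith
  have hc : ∀ q ∈ goodPrimes a (cut N), 0 ≤ share q := fun q hq =>
    (share_bounds (mem_goodPrimes.1 hq).1.two_le).1
  have hes : ∑ T ∈ (goodPrimes a (cut N)).powersetCard k, ∏ q ∈ T, share q ≤ L ^ 2 := by
    refine ((PointEK.esymm_le hc k).trans
      (Real.pow_div_factorial_le_exp _ (hσdef ▸ sum_nonneg hc) k)).trans ?_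
    rw [← hσdef, show L ^ 2 = Real.exp (loglog N) ^ 2 by
      rw [hL, loglog, Real.exp_log (hL ▸ lt_of_lt_of_le one_pos hL1)], ← Real.exp_nat_mul,
      Real.exp_le_exp]
    push_cast
    linarith
  obtain ⟨E0, hE0⟩ : ∃ E0, E0 = C * ((N : ℝ) / L ^ 6) := ⟨_, rfl⟩
  rw [← hE0] at hl h0
  refine (sum_le_sum (g := fun T : Finset ℕ =>
    |(((primesUpTo N).filter fun p => ∀ q ∈ T, q ∣ shifted a p).card : ℝ) -
      (∏ q ∈ T, share q) * recipLogSum N| + (∏ q ∈ T, share q) * E0) fun T hT => ?_).trans ?_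
  · refine (abs_sub_le _ ((∏ q ∈ T, share q) * recipLogSum N) _).trans (add_le_add le_rfl ?_)
    have h1 : 0 ≤ ∏ q ∈ T, share q := prod_nonneg fun q hq => hc q ((mem_powersetCard.1 hT).1 hq)
    rw [← mul_sub, abs_mul, abs_of_nonneg h1, abs_sub_comm]
    exact mul_le_mul_of_nonneg_left h0 h1
  · rw [sum_add_distrib, ← sum_mul]
    have hE1 : 0 ≤ E0 := (abs_nonneg _).trans h0
    refine (add_le_add (hl _ k (hpow k hk)) (mul_le_mul_of_nonneg_right hes hE1)).trans ?_
    have hN4 : (N : ℝ) ≤ 4 * L * (primesUpTo N).card := by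
      rw [div_le_iff₀ (by linarith)] at hcard
      linarith
    have h2 : E0 + L ^ 2 * E0 ≤ 2 * L ^ 2 * E0 := by
      have := le_mul_of_one_le_left hE1 (one_le_pow₀ hL1 (n := 2))
      linarith
    refine h2.trans ?_
    rw [hE0, show 2 * L ^ 2 * (C * ((N : ℝ) / L ^ 6)) = 2 * C * ((N : ℝ) / L ^ 4) by
      field_simp,
      show 8 * C * (((primesUpTo N).card : ℝ) / L ^ 3) =
        2 * C * (4 * L * (primesUpTo N).card / L ^ 4) by field_simp; ring]
    exact mul_le_mul_of_nonneg_left (div_le_div_of_nonneg_right hN4 (by positivity)) (by positivity)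

/-- The count of the prime divisors against those up to `N ^ (1/4)`. -/
theorem abs_omega_sub_le (ha : a ≠ 0) {N w z p : ℕ} (hwz : w ≤ z) (hz : N < (z + 1) ^ 4)
    (hz1 : 1 ≤ z) (hp : p ≤ N) (haN : a.natAbs ≤ N) (hN : 2 ≤ N) (σ x : ℝ) :
    |((shifted a p).primeFactors.card : ℝ) - x -
        ((((goodPrimes a w).filter (· ∣ shifted a p)).card : ℝ) - σ)| ≤
      (|σ - x| + a.natAbs.primeFactors.card + 8) +
        ((((goodPrimes a z).filter (· ∣ shifted a p)).card : ℝ) -
          ((goodPrimes a w).filter (· ∣ shifted a p)).card) +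
        (if shifted a p = 0 then (w : ℝ) else 0) := by
  have hwle : ((((goodPrimes a w).filter (· ∣ shifted a p)).card : ℕ) : ℝ) ≤ w :=
    Nat.cast_le.2 ((card_filter_le _ _).trans (card_goodPrimes_le a w))
  have hmono : (((goodPrimes a w).filter (· ∣ shifted a p)).card : ℝ) ≤
      ((goodPrimes a z).filter (· ∣ shifted a p)).card :=
    Nat.cast_le.2 (card_le_card (filter_subset_filter _ (goodPrimes_mono a hwz)))
  have hnn := Nat.cast_nonneg (α := ℝ) a.natAbs.primeFactors.card
  have hw0 := Nat.cast_nonneg (α := ℝ) ((goodPrimes a w).filter (· ∣ shifted a p)).card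
  rcases Nat.eq_zero_or_pos (shifted a p) with h0 | hpos
  · rw [if_pos h0, abs_le, show (shifted a p).primeFactors.card = 0 by rw [h0]; simp,
      Nat.cast_zero]
    constructor <;> linarith [le_abs_self (σ - x), neg_abs_le (σ - x)]
  · rw [if_neg hpos.ne', add_zero]
    have hle : shifted a p ≤ N ^ 2 := by
      have h1 : shifted a p ≤ p + a.natAbs := by
        rw [shifted]
        omega
      have h2 : 2 * N ≤ N ^ 2 := by
        rw [sq]
        exact Nat.mul_le_mul_right _ hN
      omega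
    have hlow : ((goodPrimes a z).filter (· ∣ shifted a p)).card ≤
        (shifted a p).primeFactors.card := card_le_card fun q hq =>
      Nat.mem_primeFactors.2 ⟨(mem_goodPrimes.1 (mem_filter.1 hq).1).1, (mem_filter.1 hq).2,
        hpos.ne'⟩
    have hbig : ((shifted a p).primeFactors.filter fun q => z < q).card ≤ 8 := by
      have h1 : (z + 1) ^ ((shifted a p).primeFactors.filter fun q => z < q).card ≤
          shifted a p := (pow_card_le_prod _ _ _ fun q hq => (mem_filter.1 hq).2).trans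
        (Nat.le_of_dvd hpos ((prod_dvd_prod_of_subset _ _ id (filter_subset _ _)).trans
          (Nat.prod_primeFactors_dvd _)))
      have h2 : N ^ 2 < (z + 1) ^ 8 := by
        calc N ^ 2 < ((z + 1) ^ 4) ^ 2 := Nat.pow_lt_pow_left hz two_ne_zero
          _ = (z + 1) ^ 8 := by ring
      exact ((Nat.pow_lt_pow_iff_right (by omega)).1 ((h1.trans hle).trans_lt h2)).le
    have hup : (shifted a p).primeFactors.card ≤
        ((goodPrimes a z).filter (· ∣ shifted a p)).card + a.natAbs.primeFactors.card + 8 := by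
      refine (card_le_card (t := (goodPrimes a z).filter (· ∣ shifted a p) ∪
        a.natAbs.primeFactors ∪ (shifted a p).primeFactors.filter fun q => z < q)
        fun q hq => ?_).trans ((card_union_le _ _).trans
          (add_le_add (card_union_le _ _) hbig))
      obtain ⟨hqp, hqd, -⟩ := Nat.mem_primeFactors.1 hq
      rw [mem_union, mem_union, mem_filter, mem_filter, mem_goodPrimes]
      by_cases hqz : q ≤ z
      · by_cases hqa : (q : ℤ) ∣ a
        · exact Or.inl (Or.inr (Nat.mem_primeFactors.2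
            ⟨hqp, Int.natCast_dvd.1 hqa, Int.natAbs_ne_zero.2 ha⟩))
        · exact Or.inl (Or.inl ⟨⟨hqp, hqz, hqa⟩, hqd⟩)
      · exact Or.inr ⟨hq, not_le.1 hqz⟩
    have h1 := (Nat.cast_le (α := ℝ)).2 hlow
    have h2 := (Nat.cast_le (α := ℝ)).2 hup
    push_cast at h2
    rw [abs_le]
    constructor <;> linarith [le_abs_self (σ - x), neg_abs_le (σ - x)]

/-- The middle primes add little on average. -/
theorem sum_middle_le {N w z : ℕ} (hwz : w ≤ z) {X E : ℝ}
    (h : ∑ T ∈ (goodPrimes a z).powersetCard 1,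
      |(((primesUpTo N).filter fun p => ∀ q ∈ T, q ∣ shifted a p).card : ℝ) -
        (∏ q ∈ T, share q) * X| ≤ E) :
    ∑ p ∈ primesUpTo N, ((((goodPrimes a z).filter (· ∣ shifted a p)).card : ℝ) -
      ((goodPrimes a w).filter (· ∣ shifted a p)).card) ≤
      ((∑ q ∈ goodPrimes a z, share q) - ∑ q ∈ goodPrimes a w, share q) * X + E := by
  have hsub := goodPrimes_mono a hwz
  have e : ∀ p, (((goodPrimes a z).filter (· ∣ shifted a p)).card : ℝ) -
      ((goodPrimes a w).filter (· ∣ shifted a p)).card =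
      ∑ q ∈ goodPrimes a z \ goodPrimes a w, if q ∣ shifted a p then (1 : ℝ) else 0 :=
    fun p => by
      simp only [← sum_boole]
      rw [← sum_sdiff hsub, add_sub_cancel_right]
  rw [powersetCard_one, sum_map] at h
  simp only [Function.Embedding.coeFn_mk, mem_singleton, forall_eq, prod_singleton] at h
  rw [sum_congr rfl fun p _ => e p, sum_comm, ← sum_sdiff hsub (f := share), add_sub_cancel_right,
    sum_mul]
  refine (sum_le_sum (g := fun q => share q * X +
    |(((primesUpTo N).filter fun p => q ∣ shifted a p).card : ℝ) - share q * X|)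
    fun q _ => ?_).trans ?_
  · rw [sum_boole]
    linarith [le_abs_self ((((primesUpTo N).filter fun p => q ∣ shifted a p).card : ℝ) -
      share q * X)]
  · rw [sum_add_distrib]
    exact add_le_add le_rfl ((sum_le_sum_of_subset_of_nonneg sdiff_subset
      fun q _ _ => abs_nonneg _).trans h)

/-- The numbers differ little from the centred count. -/
theorem exists_deviation_le (ha : a ≠ 0) : ∃ b : ℝ, ∀ᶠ N : ℕ in atTop,
    (∑ p ∈ primesUpTo N, |((shifted a p).primeFactors.card : ℝ) - loglog N -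
        ((((goodPrimes a (cut N)).filter (· ∣ shifted a p)).card : ℝ) -
          ∑ q ∈ goodPrimes a (cut N), share q)|) /
        ((primesUpTo N).card * Real.sqrt (loglog N)) ≤
      |((∑ q ∈ goodPrimes a (cut N), share q) - loglog N) / Real.sqrt (loglog N)| +
        (b + Real.log (loglog N)) / Real.sqrt (loglog N) := by
  obtain ⟨C, hC, hlev⟩ := exists_level (a := a)
  obtain ⟨C₁, hC₁⟩ := FA.ErdosKac.exists_abs_recipSum_sub_le
  obtain ⟨ω, hω⟩ : ∃ ω : ℝ, ω = a.natAbs.primeFactors.card := ⟨_, rfl⟩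
  have hω0 : 0 ≤ ω := hω ▸ Nat.cast_nonneg _
  obtain ⟨R₀, hR₀⟩ : ∃ R₀, R₀ = 2 * |C₁| + 1 + 2 * (2 + ω) := ⟨_, rfl⟩
  refine ⟨ω + 10 + R₀, ?_⟩
  filter_upwards [hlev, eventually_scale 0, FA.ErdosKac.eventually_cut,
    eventually_ge_atTop (max 3 a.natAbs),
    BombieriVinogradov.eventually_log_pow_le 1 (show (0 : ℝ) < 1 / 4 by norm_num),
    BombieriVinogradov.eventually_log_ge (max 1 (4 * C * (2 + R₀))),
    eventually_ge_atTop 16, tendsto_loglog.eventually_ge_atTop 1]
    with N ⟨hl, h0, hcard⟩ ⟨_, hcz, _⟩ ⟨hc2, _, hcl⟩ hN hlp hL hN16 hx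
  obtain ⟨L, hLdef⟩ : ∃ L, L = Real.log N := ⟨_, rfl⟩
  obtain ⟨z, hz⟩ : ∃ z, z = Nat.sqrt (Nat.sqrt N) := ⟨_, rfl⟩
  obtain ⟨x, hxdef⟩ : ∃ x, x = loglog N := ⟨_, rfl⟩
  obtain ⟨σ, hσ⟩ : ∃ σ, σ = ∑ q ∈ goodPrimes a (cut N), share q := ⟨_, rfl⟩
  obtain ⟨σz, hσz⟩ : ∃ σz, σz = ∑ q ∈ goodPrimes a z, share q := ⟨_, rfl⟩
  rw [← hLdef] at hl h0 hcard hlp hL
  rw [← hz] at hl hcz
  rw [← hxdef] at hcl hx ⊢
  rw [← hσ]
  have hL1 : 1 ≤ L := le_of_max_le_left hL
  have hN0 : (0 : ℝ) < N := Nat.cast_pos.2 (by omega)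
  have hS0 : (0 : ℝ) < (primesUpTo N).card :=
    lt_of_lt_of_le (show (0 : ℝ) < N / (4 * L) by positivity) hcard
  have hz2 : 2 ≤ z := hc2.trans hcz
  have hzN : z ≤ N := by
    rw [hz]
    exact (Nat.sqrt_le_self _).trans (Nat.sqrt_le_self _)
  -- the sum of the shares between the cut and `z`
  have hgap : σz - σ ≤ Real.log x + R₀ := by
    have h1 := (abs_le.1 (abs_shareSum_sub_recipSum_le ha z)).2
    have h2 := (abs_le.1 (abs_shareSum_sub_recipSum_le ha (cut N))).1
    have h3 := (abs_le.1 (hC₁ z hz2)).2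
    have h4 := (abs_le.1 (hC₁ (cut N) hc2)).1
    have h5 : Real.log (Real.log z) ≤ x := by
      rw [hxdef, loglog]
      exact Real.log_le_log (Real.log_pos (Nat.one_lt_cast.2 (by omega)))
        (Real.log_le_log (Nat.cast_pos.2 (by omega)) (Nat.cast_le.2 hzN))
    have h6 := (abs_le.1 hcl).1
    rw [← hσz, ← hω] at h1
    rw [← hσ, ← hω] at h2
    linarith [le_abs_self C₁]
  have hgap0 : 0 ≤ σz - σ := by
    rw [hσz, hσ, sub_nonneg]
    exact sum_le_sum_of_subset_of_nonneg (goodPrimes_mono a hcz) fun q hq _ =>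
      (share_bounds (mem_goodPrimes.1 hq).1.two_le).1
  obtain ⟨E0, hE0⟩ : ∃ E0, E0 = C * ((N : ℝ) / L ^ 6) := ⟨_, rfl⟩
  rw [← hE0] at hl h0
  have hmid := sum_middle_le hcz (hl z 1 (by rw [pow_one]))
  rw [← hσz, ← hσ] at hmid
  have hX : recipLogSum N ≤ (primesUpTo N).card + E0 := by linarith [(abs_le.1 h0).1]
  -- the error terms
  have hlogx : 0 ≤ Real.log x := Real.log_nonneg hx
  have hlogx2 : Real.log x + R₀ + 1 ≤ (2 + R₀) * L := by
    have h1 : Real.log x ≤ x := Real.log_le_self (by linarith)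
    have h2 : x ≤ L := by
      rw [hxdef, loglog, ← hLdef]
      exact Real.log_le_self (by linarith)
    have h3 : R₀ ≤ R₀ * L := le_mul_of_one_le_right (by rw [hR₀]; positivity) hL1
    linarith
  have hE : (Real.log x + R₀ + 1) * E0 ≤ (primesUpTo N).card := by
    refine le_trans ?_ hcard
    rw [hE0]
    refine (mul_le_mul_of_nonneg_right hlogx2 (by positivity)).trans ?_
    rw [show (2 + R₀) * L * (C * ((N : ℝ) / L ^ 6)) = C * (2 + R₀) * N / L ^ 5 by field_simp,
      div_le_div_iff₀ (by positivity) (by positivity)]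
    have h2 : 4 * C * (2 + R₀) ≤ L ^ 4 :=
      (le_of_max_le_right hL).trans (le_self_pow₀ hL1 (by norm_num))
    have h3 := mul_le_mul_of_nonneg_left h2 (show 0 ≤ (N : ℝ) * L by positivity)
    linarith
  have hzS : (z : ℝ) ≤ (primesUpTo N).card := by
    refine le_trans ?_ hcard
    rw [le_div_iff₀ (by positivity), hz]
    have h4 : (4 : ℝ) ≤ (N : ℝ) ^ (1 / 2 : ℝ) := by
      rw [← Real.sqrt_eq_rpow, Real.le_sqrt' (by norm_num)]
      norm_num
      exact_mod_cast hN16
    rw [pow_one] at hlp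
    refine (mul_le_mul (sqrt_sqrt_le_rpow N)
      (mul_le_mul h4 hlp (by linarith) (by positivity)) (by positivity) (by positivity)).trans
      (le_of_eq ?_)
    rw [← Real.rpow_add hN0, ← Real.rpow_add hN0]
    norm_num
  -- the sum
  have hzero : ∑ p ∈ primesUpTo N, (if shifted a p = 0 then (cut N : ℝ) else 0) ≤ cut N := by
    rw [← sum_filter, sum_const, nsmul_eq_mul]
    refine mul_le_of_le_one_left (Nat.cast_nonneg _) (Nat.cast_le_one.2 (card_le_one.2 ?_))
    intro p hp q hq
    have h1 := Int.natAbs_eq_zero.1 (mem_filter.1 hp).2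
    have h2 := Int.natAbs_eq_zero.1 (mem_filter.1 hq).2
    omega
  have hsum : ∑ p ∈ primesUpTo N, |((shifted a p).primeFactors.card : ℝ) - x -
      ((((goodPrimes a (cut N)).filter (· ∣ shifted a p)).card : ℝ) - σ)| ≤
      (primesUpTo N).card * (|σ - x| + (ω + 10 + R₀ + Real.log x)) := by
    refine (sum_le_sum fun p hp => abs_omega_sub_le ha hcz
      (hz ▸ lt_sqrt_sqrt_succ_pow_four N) (by omega) (mem_primesUpTo.1 hp).2
      (le_of_max_le_right hN) (by omega) σ x).trans ?_
    rw [sum_add_distrib, sum_add_distrib, sum_const, nsmul_eq_mul, ← hω]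
    have h1 := mul_le_mul_of_nonneg_left hX hgap0
    have h2 := mul_le_mul_of_nonneg_right hgap hS0.le
    have h3 := mul_le_mul_of_nonneg_right hgap ((abs_nonneg _).trans h0)
    have h4 : (cut N : ℝ) ≤ (z : ℝ) := Nat.cast_le.2 hcz
    linarith
  have hsx : 0 < Real.sqrt x := Real.sqrt_pos.2 (by linarith)
  rw [abs_div, abs_of_pos hsx, ← add_div, div_le_div_iff₀ (mul_pos hS0 hsx) hsx]
  exact (mul_le_mul_of_nonneg_right hsum hsx.le).trans (le_of_eq (by ring))

/-- **The Erdős–Kac theorem for shifted primes.** -/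
theorem tendsto_omega_shifted (ha : a ≠ 0) (y : ℝ) :
    Tendsto (fun N : ℕ => (((primesUpTo N).filter fun p =>
      ((shifted a p).primeFactors.card : ℝ) - loglog N ≤ y * Real.sqrt (loglog N)).card : ℝ) /
        (primesUpTo N).card) atTop
      (𝓝 ((ProbabilityTheory.gaussianReal 0 1).real (Set.Iic y))) := by
  obtain ⟨C, hlev⟩ := exists_count_bound ha 0
  refine PointEK.tendsto_gaussian
    (v := fun N p => ((shifted a p).primeFactors.card : ℝ) - loglog N) (x := loglog)
    (hlev.mono fun N hN => card_pos.1 hN.1) (tendsto_loglog.eventually_gt_atTop 0)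
    (fun t => ?_) y
  obtain ⟨C, hcount⟩ := exists_count_bound ha t
  obtain ⟨b, hdev⟩ := exists_deviation_le ha
  refine tendsto_charAvg_of_average (P := fun N => goodPrimes a (cut N)) (f := shifted a)
    (c := share) (C := 4) (E := fun N => C * ((primesUpTo N).card / Real.log N ^ 3)) t
    (fun N q hq => ⟨(share_bounds (mem_goodPrimes.1 hq).1.two_le).1,
      (share_bounds (mem_goodPrimes.1 hq).1.two_le).2.1⟩)
    (fun N => sum_share_sq_le a _) tendsto_loglog (tendsto_shareSum_cut ha) hcount ?_ ?_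
  · have h0 : Tendsto (fun N : ℕ => |C| / Real.log N) atTop (𝓝 0) :=
      tendsto_const_nhds.div_atTop (Real.tendsto_log_atTop.comp tendsto_natCast_atTop_atTop)
    refine squeeze_zero_norm' ?_ h0
    filter_upwards [eventually_scale t, hlev, eventually_ge_atTop 2] with N ⟨_, _, hK⟩ ⟨hS, _⟩ hN
    have hS0 : (0 : ℝ) < (primesUpTo N).card := Nat.cast_pos.2 hS
    have hl : 0 < Real.log N := Real.log_pos (Nat.one_lt_cast.2 (by omega))
    rw [Real.norm_eq_abs, show ((truncLen t (loglog N) : ℝ) + 1) * 2 ^ truncLen t (loglog N) *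
      (C * ((primesUpTo N).card / Real.log N ^ 3)) / (primesUpTo N).card =
        ((truncLen t (loglog N) : ℝ) + 1) * 2 ^ truncLen t (loglog N) / Real.log N ^ 3 * C by
        field_simp, abs_mul, abs_of_nonneg (div_nonneg (by positivity) (pow_nonneg hl.le 3))]
    refine (mul_le_mul_of_nonneg_right (div_le_div_of_nonneg_right hK (pow_nonneg hl.le 3))
      (abs_nonneg C)).trans (le_of_eq ?_)
    field_simp
  · have hlog : Tendsto (fun x : ℝ => (b + Real.log x) / Real.sqrt x) atTop (𝓝 0) := by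
      have h1 : Tendsto (fun x : ℝ => Real.log x / Real.sqrt x) atTop (𝓝 0) := by
        refine ((isLittleO_log_rpow_atTop
          (show (0 : ℝ) < 1 / 2 by norm_num)).tendsto_div_nhds_zero).congr fun x => ?_
        rw [Real.sqrt_eq_rpow]
      have h2 : Tendsto (fun x : ℝ => b / Real.sqrt x) atTop (𝓝 0) :=
        tendsto_const_nhds.div_atTop Real.tendsto_sqrt_atTop
      simpa [add_div] using h2.add h1
    refine squeeze_zero' (Eventually.of_forall fun N => div_nonneg
      (sum_nonneg fun p _ => abs_nonneg _)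
      (mul_nonneg (Nat.cast_nonneg _) (Real.sqrt_nonneg _))) hdev ?_
    simpa using (tendsto_shareSum_cut ha).abs.add (hlog.comp tendsto_loglog)

/-- `log log p` is within `1` of `log log N` for `√N < p ≤ N`. -/
theorem abs_loglog_sub_le {N p : ℕ} (hp : p ≤ N) (hN : Nat.sqrt N < p) (h2 : 2 ≤ p) :
    loglog N - 1 ≤ loglog p ∧ loglog p ≤ loglog N := by
  have hp0 : (0 : ℝ) < p := Nat.cast_pos.2 (by omega)
  have hlp : 0 < Real.log p := Real.log_pos (Nat.one_lt_cast.2 (by omega))
  have h1 : Real.log N ≤ 2 * Real.log p := by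
    rw [two_mul, ← Real.log_mul hp0.ne' hp0.ne']
    refine Real.log_le_log (Nat.cast_pos.2 (by omega)) ?_
    exact_mod_cast (Nat.sqrt_lt.1 hN).le
  have hlN : 0 < Real.log N := Real.log_pos (Nat.one_lt_cast.2 (by omega))
  have h3 := Real.log_le_log hlN h1
  rw [Real.log_mul two_ne_zero hlp.ne'] at h3
  refine ⟨?_, Real.log_le_log hlp (Real.log_le_log hp0 (Nat.cast_le.2 hp))⟩
  rw [loglog, loglog]
  linarith [Real.log_two_lt_d9]

/-- **The normal order of `ω |p + a|` is `log log p`.** -/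
theorem tendsto_abnormal (ha : a ≠ 0) {ε : ℝ} (hε : 0 < ε) :
    Tendsto (fun N : ℕ => (((primesUpTo N).filter fun p =>
      ε * loglog p < |((shifted a p).primeFactors.card : ℝ) - loglog p|).card : ℝ) /
        (primesUpTo N).card) atTop (𝓝 0) := by
  refine tendsto_order.2 ⟨fun δ hδ => Eventually.of_forall fun N =>
    hδ.trans_le (by positivity), fun δ hδ => ?_⟩
  obtain ⟨μ, hμdef⟩ : ∃ μ, μ = ProbabilityTheory.gaussianReal 0 1 := ⟨_, rfl⟩
  have hμ : MeasureTheory.IsProbabilityMeasure μ := hμdef ▸ inferInstance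
  have hlo := (ProbabilityTheory.tendsto_cdf_atBot μ).eventually_lt_const
    (show (0 : ℝ) < δ / 4 by positivity)
  have hhi := (ProbabilityTheory.tendsto_cdf_atTop μ).eventually_const_lt
    (show 1 - δ / 4 < (1 : ℝ) by linarith)
  obtain ⟨y, ⟨hy1, hy2⟩, hy0⟩ :=
    ((hhi.and (tendsto_neg_atTop_atBot.eventually hlo)).and (eventually_gt_atTop 0)).exists
  rw [ProbabilityTheory.cdf_eq_real, hμdef] at hy1 hy2
  obtain ⟨C, -, hlev⟩ := exists_level (a := a)
  have hsmall : Tendsto (fun N : ℕ => (Nat.sqrt N : ℝ) / (primesUpTo N).card) atTop (𝓝 0) := by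
    have h := ((isLittleO_log_rpow_atTop (show (0 : ℝ) < 1 / 2 by norm_num)).tendsto_div_nhds_zero
      ).comp (tendsto_natCast_atTop_atTop (R := ℝ))
    refine squeeze_zero' (Eventually.of_forall fun N => by positivity) ?_
      (by simpa using h.const_mul 4)
    filter_upwards [hlev, eventually_ge_atTop 2] with N hN hN2
    have hN0 : (0 : ℝ) < N := Nat.cast_pos.2 (by omega)
    have hl : 0 < Real.log N := Real.log_pos (Nat.one_lt_cast.2 (by omega))
    refine (div_le_div₀ (Real.sqrt_nonneg _) Real.nat_sqrt_le_real_sqrt (by positivity)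
      hN.2.2).trans (le_of_eq ?_)
    rw [← one_div, ← Real.sqrt_eq_rpow, div_div_eq_mul_div]
    field_simp
    rw [Real.sq_sqrt hN0.le]
  filter_upwards [(tendsto_omega_shifted ha (-y)).eventually_lt_const hy2,
    (tendsto_omega_shifted ha y).eventually_const_lt hy1,
    hsmall.eventually_lt_const (show (0 : ℝ) < δ / 4 by positivity),
    tendsto_loglog.eventually_ge_atTop (2 + 2 / ε),
    tendsto_sqrt_loglog.eventually_ge_atTop (2 * y / ε), hlev, eventually_ge_atTop 2]
    with N hlow hhigh hsq hx hsx hN hN2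
  have hS0 : (0 : ℝ) < (primesUpTo N).card := lt_of_lt_of_le (div_pos (Nat.cast_pos.2 (by omega))
    (mul_pos (by norm_num) (Real.log_pos (Nat.one_lt_cast.2 (by omega))))) hN.2.2
  rw [div_lt_iff₀ hS0] at hlow hsq ⊢
  rw [lt_div_iff₀ hS0] at hhigh
  obtain ⟨v, hv⟩ : ∃ v : ℕ → ℝ,
      v = fun p => ((shifted a p).primeFactors.card : ℝ) - loglog N := ⟨_, rfl⟩
  have hsub : ((primesUpTo N).filter fun p =>
      ε * loglog p < |((shifted a p).primeFactors.card : ℝ) - loglog p|) ⊆
      (Icc 1 (Nat.sqrt N) ∪ (primesUpTo N).filter fun p => v p ≤ -y * Real.sqrt (loglog N)) ∪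
        (primesUpTo N).filter fun p => ¬ v p ≤ y * Real.sqrt (loglog N) := fun p hp => by
    obtain ⟨hpS, hab⟩ := mem_filter.1 hp
    obtain ⟨hpp, hpN⟩ := mem_primesUpTo.1 hpS
    rw [mem_union, mem_union, mem_Icc, mem_filter, mem_filter, hv]
    by_cases hsm : p ≤ Nat.sqrt N
    · exact Or.inl (Or.inl ⟨hpp.one_le, hsm⟩)
    obtain ⟨h1, h2⟩ := abs_loglog_sub_le hpN (not_le.1 hsm) hpp.two_le
    have h5 : 0 < 2 / ε := div_pos two_pos hε
    have h3 : y * Real.sqrt (loglog N) ≤ ε / 2 * loglog N := by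
      rw [div_le_iff₀ hε] at hsx
      have h := mul_le_mul_of_nonneg_right hsx (Real.sqrt_nonneg (loglog N))
      have h7 : ε * (Real.sqrt (loglog N) * Real.sqrt (loglog N)) = ε * loglog N := by
        rw [Real.mul_self_sqrt (by linarith)]
      linarith
    have h6 : ε * (2 + 2 / ε) ≤ ε * loglog N := mul_le_mul_of_nonneg_left hx hε.le
    rw [mul_add, mul_div_cancel₀ _ hε.ne'] at h6
    have h4 : ε * (loglog N - 1) ≤ ε * loglog p := mul_le_mul_of_nonneg_left h1 hε.le
    rcases lt_abs.1 hab with h | h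
    · exact Or.inr ⟨hpS, by linarith⟩
    · exact Or.inl (Or.inr ⟨hpS, by linarith⟩)
  refine lt_of_le_of_lt ((Nat.cast_le.2 ((card_le_card hsub).trans ((card_union_le _ _).trans
    (add_le_add (card_union_le _ _) le_rfl)))).trans_eq (Nat.cast_add _ _)) ?_
  rw [Nat.cast_add, Nat.card_Icc, Nat.add_sub_cancel]
  have hcompl : (((primesUpTo N).filter fun p => v p ≤ y * Real.sqrt (loglog N)).card : ℝ) +
      ((primesUpTo N).filter fun p => ¬ v p ≤ y * Real.sqrt (loglog N)).card =
      (primesUpTo N).card := by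
    rw [← Nat.cast_add, card_filter_add_card_filter_not]
  subst hv
  have hpos : 0 < δ * (primesUpTo N).card := mul_pos hδ hS0
  linarith

end FA.ShiftedPrimeOmega

end
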