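import Fermat.Agent.PointCountErdosKac.Limit

/-!
# The weighted model with errors on average

As in `PointCountErdosKac`, but the errors of the counts are bounded only in sum over the sets of
`k` primes for each `k ≤ K`, as the theorem of Bombieri and Vinogradov gives them. The truncation
costs `(K + 1) 2 ^ K E / #S`.
-/

set_option autoImplicit false

noncomputable section

namespace FA.ShiftedPrimeOmega

open Finset Filter
open FA.PointEK (esymm esymm_le esymm_nonneg)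
open scoped Topology

variable {S P : Finset ℕ} {f : ℕ → ℕ} {c : ℕ → ℝ} {E : ℝ} {K : ℕ}

theorem sum_choose_eq (k : ℕ) :
    (∑ p ∈ S, ((P.filter (· ∣ f p)).card.choose k : ℝ)) =
      ∑ T ∈ P.powersetCard k, ((S.filter fun p => ∀ q ∈ T, q ∣ f p).card : ℝ) := by
  have h : ∀ p, ((P.filter (· ∣ f p)).card.choose k : ℝ) =
      ∑ T ∈ P.powersetCard k, if ∀ q ∈ T, q ∣ f p then (1 : ℝ) else 0 := fun p => by
    rw [← card_powersetCard, sum_boole]
    congr 2
    ext T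
    simp only [mem_powersetCard, mem_filter]
    refine ⟨fun h => ⟨⟨h.1.trans (filter_subset _ _), h.2⟩,
        fun q hq => (mem_filter.1 (h.1 hq)).2⟩,
      fun h => ⟨fun q hq => mem_filter.2 ⟨h.1.1 hq, h.2 q hq⟩, h.1.2⟩⟩
  rw [sum_congr rfl fun p _ => h p, sum_comm]
  exact sum_congr rfl fun T _ => sum_boole _ _

/-- **The comparison with the model, for errors on average.** -/
theorem norm_avg_pow_sub_le (hc : ∀ q ∈ P, 0 ≤ c q) {w : ℂ} (hw : ‖1 + w‖ ≤ 1)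
    (hK : 6 * (‖w‖ * ∑ q ∈ P, c q) ≤ K) (hS : 0 < S.card) (hE : 0 ≤ E)
    (hcount : ∀ k ≤ K, ∑ T ∈ P.powersetCard k,
      |((S.filter fun p => ∀ q ∈ T, q ∣ f p).card : ℝ) - (∏ q ∈ T, c q) * S.card| ≤ E) :
    ‖(∑ p ∈ S, (1 + w) ^ (P.filter (· ∣ f p)).card) / (S.card : ℂ) -
        ∏ q ∈ P, (1 + w * (c q : ℂ))‖ ≤
      3 * (1 / 2) ^ K + ((K : ℝ) + 1) * 2 ^ K * E / S.card := by
  obtain ⟨X, hXdef⟩ : ∃ X : ℝ, X = S.card := ⟨_, rfl⟩
  have hX : 0 < X := hXdef ▸ Nat.cast_pos.2 hS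
  rw [← hXdef, show (S.card : ℂ) = (X : ℂ) by rw [hXdef, Complex.ofReal_natCast]]
  have hw2 : ‖w‖ ≤ 2 := by
    calc ‖w‖ = ‖(1 + w) - 1‖ := by rw [add_sub_cancel_left]
      _ ≤ ‖1 + w‖ + ‖(1 : ℂ)‖ := norm_sub_le _ _
      _ ≤ 2 := by rw [norm_one]; linarith
  obtain ⟨B, hB⟩ : ∃ B, B = (2 : ℝ) ^ K * E := ⟨_, rfl⟩
  rw [mul_assoc ((K : ℝ) + 1), ← hB]
  have hterm : ∀ k ≤ K, ‖w‖ ^ k * E ≤ B := fun k hk => by
    rw [hB]
    exact mul_le_mul_of_nonneg_right ((pow_le_pow_left₀ (norm_nonneg w) hw2 k).trans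
      (pow_le_pow_right₀ one_le_two hk)) hE
  obtain ⟨d, hd⟩ : ∃ d : ℕ → ℝ,
      d = fun k => ∑ p ∈ S, ((P.filter (· ∣ f p)).card.choose k : ℝ) := ⟨_, rfl⟩
  have hdk : ∀ k ≤ K, |d k - X * esymm c P k| ≤ E := fun k hk => by
    rw [hd]
    simp only [sum_choose_eq, esymm, mul_sum, ← sum_sub_distrib]
    refine (abs_sum_le_sum_abs _ _).trans (le_of_eq_of_le ?_ (hcount k hk))
    exact sum_congr rfl fun T _ => by rw [hXdef, mul_comm]
  have hL0 : 0 ≤ ∑ q ∈ P, c q := sum_nonneg hc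
  have hes : ∀ k, K ≤ k → ‖w‖ ^ k * esymm c P k ≤ (1 / 2) ^ k := fun k hk => by
    refine (mul_le_mul_of_nonneg_left (esymm_le hc k) (by positivity)).trans ?_
    rw [← mul_div_assoc, ← mul_pow]
    exact FA.ErdosKac.pow_div_factorial_le (mul_nonneg (norm_nonneg w) hL0) hK hk
  have h1 : ‖(∑ p ∈ S, (1 + w) ^ (P.filter (· ∣ f p)).card) / (X : ℂ) -
      ∑ k ∈ range K, w ^ k * ((d k / X : ℝ) : ℂ)‖ ≤ (1 / 2) ^ K + B / X := by
    have e : ∑ k ∈ range K, w ^ k * ((d k / X : ℝ) : ℂ) =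
        (∑ p ∈ S, ∑ k ∈ range K, ((P.filter (· ∣ f p)).card.choose k : ℂ) * w ^ k) / (X : ℂ) := by
      rw [sum_comm, sum_div, hd]
      refine sum_congr rfl fun k _ => ?_
      push_cast
      rw [mul_div_assoc', mul_comm (w ^ k), sum_mul]
    rw [e, ← sub_div, ← sum_sub_distrib, norm_div, Complex.norm_real, Real.norm_of_nonneg hX.le,
      div_le_iff₀ hX, add_mul, div_mul_cancel₀ _ hX.ne']
    refine (norm_sum_le _ _).trans
      ((sum_le_sum fun n _ => FA.ErdosKac.norm_binomial_trunc_le hw _ K).trans ?_)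
    have h := (abs_le.1 (hdk K le_rfl)).2
    have h' := mul_le_mul_of_nonneg_left (hes K le_rfl) hX.le
    have h'' := mul_le_mul_of_nonneg_right (show d K ≤ X * esymm c P K + E by linarith)
      (show 0 ≤ ‖w‖ ^ K by positivity)
    rw [← sum_mul]
    rw [hd] at h''
    have h3 := hterm K le_rfl
    linarith
  have h2 : ‖∑ k ∈ range K, w ^ k * ((d k / X : ℝ) : ℂ) -
      ∑ k ∈ range K, w ^ k * (esymm c P k : ℂ)‖ ≤ K * B / X := by
    rw [← sum_sub_distrib]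
    refine (norm_sum_le _ _).trans ((sum_le_sum (g := fun _ => B / X) fun k hk => ?_).trans ?_)
    · rw [← mul_sub, ← Complex.ofReal_sub, norm_mul, norm_pow, Complex.norm_real, Real.norm_eq_abs,
        div_sub' hX.ne', abs_div, abs_of_pos hX, mul_div_assoc']
      refine div_le_div_of_nonneg_right ?_ hX.le
      exact (mul_le_mul_of_nonneg_left (hdk k (mem_range.1 hk).le) (by positivity)).trans
        (hterm k (mem_range.1 hk).le)
    · rw [sum_const, card_range, nsmul_eq_mul, mul_div_assoc]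
  have h3 : ‖∑ k ∈ range K, w ^ k * (esymm c P k : ℂ) - ∏ q ∈ P, (1 + w * (c q : ℂ))‖ ≤
      2 * (1 / 2) ^ K := by
    obtain ⟨M, hM⟩ : ∃ M, M = max K (P.card + 1) := ⟨_, rfl⟩
    have e : ∏ q ∈ P, (1 + w * (c q : ℂ)) = ∑ k ∈ range M, w ^ k * (esymm c P k : ℂ) := by
      rw [PointEK.prod_one_add_eq]
      refine sum_subset (range_mono (by omega)) fun k _ hk => ?_
      rw [mem_range, not_lt] at hk
      rw [esymm, powersetCard_eq_empty.2 (by omega), sum_empty, Complex.ofReal_zero, mul_zero]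
    rw [e, ← sum_range_add_sum_Ico _ (show K ≤ M by omega), sub_add_cancel_left, norm_neg]
    refine (norm_sum_le _ _).trans
      ((sum_le_sum (g := fun k => (1 / 2 : ℝ) ^ k) fun k hk => ?_).trans ?_)
    · rw [norm_mul, norm_pow, Complex.norm_real, Real.norm_of_nonneg (esymm_nonneg hc k)]
      exact hes k (mem_Ico.1 hk).1
    · rw [sum_Ico_eq_sum_range]
      simp only [pow_add, ← mul_sum]
      rw [mul_comm (2 : ℝ)]
      exact mul_le_mul_of_nonneg_left (sum_geometric_two_le _) (by positivity)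
  have h4 := norm_sub_le_norm_sub_add_norm_sub
    ((∑ p ∈ S, (1 + w) ^ (P.filter (· ∣ f p)).card) / (X : ℂ))
    (∑ k ∈ range K, w ^ k * ((d k / X : ℝ) : ℂ)) (∑ k ∈ range K, w ^ k * (esymm c P k : ℂ))
  have h5 := norm_sub_le_norm_sub_add_norm_sub
    ((∑ p ∈ S, (1 + w) ^ (P.filter (· ∣ f p)).card) / (X : ℂ))
    (∑ k ∈ range K, w ^ k * (esymm c P k : ℂ)) (∏ q ∈ P, (1 + w * (c q : ℂ)))
  rw [add_mul, one_mul, add_div]
  linarith

/-- **The characters converge, for errors on average.** -/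
theorem tendsto_charAvg_of_average {S P : ℕ → Finset ℕ} {f : ℕ → ℕ} {c : ℕ → ℝ} {E x : ℕ → ℝ}
    {v : ℕ → ℕ → ℝ} {C : ℝ} (t : ℝ)
    (hc : ∀ N, ∀ q ∈ P N, 0 ≤ c q ∧ c q ≤ 1) (hsq : ∀ N, ∑ q ∈ P N, c q ^ 2 ≤ C)
    (hx : Tendsto x atTop atTop)
    (hL : Tendsto (fun N => ((∑ q ∈ P N, c q) - x N) / Real.sqrt (x N)) atTop (𝓝 0))
    (hcount : ∀ᶠ N in atTop, 0 < (S N).card ∧ ∀ k ≤ PointEK.truncLen t (x N),
      ∑ T ∈ (P N).powersetCard k, |(((S N).filter fun p => ∀ q ∈ T, q ∣ f p).card : ℝ) -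
        (∏ q ∈ T, c q) * (S N).card| ≤ E N)
    (hE : Tendsto (fun N => ((PointEK.truncLen t (x N) : ℝ) + 1) *
      2 ^ PointEK.truncLen t (x N) * E N / (S N).card) atTop (𝓝 0))
    (hv : Tendsto (fun N => (∑ p ∈ S N, |v N p - ((((P N).filter (· ∣ f p)).card : ℝ) -
      ∑ q ∈ P N, c q)|) / ((S N).card * Real.sqrt (x N))) atTop (𝓝 0)) :
    Tendsto (fun N => PointEK.charAvg (S N) (v N) (x N) t) atTop
      (𝓝 (Complex.exp (-(t : ℂ) ^ 2 / 2))) := by
  obtain ⟨L, hLdef⟩ : ∃ L : ℕ → ℝ, L = fun N => ∑ q ∈ P N, c q := ⟨_, rfl⟩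
  have hL0 : ∀ N, 0 ≤ L N := fun N => hLdef ▸ sum_nonneg fun q hq => (hc N q hq).1
  have hsx := Real.tendsto_sqrt_atTop.comp hx
  have hratio : Tendsto (fun N => L N / x N) atTop (𝓝 1) := by
    have h1 := (hL.mul (tendsto_inv_atTop_zero.comp hsx)).add_const 1
    rw [zero_mul, zero_add] at h1
    refine h1.congr' ?_
    filter_upwards [hx.eventually_gt_atTop 0] with N hN
    simp only [Function.comp_apply, hLdef]
    rw [← div_eq_mul_inv, div_div, Real.mul_self_sqrt hN.le, sub_div, div_self hN.ne']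
    ring
  obtain ⟨s, hsdef⟩ : ∃ s : ℕ → ℝ, s = fun N => t / Real.sqrt (x N) := ⟨_, rfl⟩
  have hs : Tendsto s atTop (𝓝 0) := hsdef ▸ tendsto_const_nhds.div_atTop hsx
  have hK : Tendsto (fun N => PointEK.truncLen t (x N)) atTop atTop := tendsto_nat_ceil_atTop.comp
    (hsx.const_mul_atTop (by positivity))
  refine (PointEK.tendsto_model t hx hL0 hratio).congr_dist ?_
  have herr : Tendsto (fun N => 3 * (1 / 2 : ℝ) ^ PointEK.truncLen t (x N) +
      ((PointEK.truncLen t (x N) : ℝ) + 1) * 2 ^ PointEK.truncLen t (x N) * E N / (S N).card +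
      |C| * s N ^ 2 + |t| * ((∑ p ∈ S N, |v N p - ((((P N).filter (· ∣ f p)).card : ℝ) -
      ∑ q ∈ P N, c q)|) / ((S N).card * Real.sqrt (x N)))) atTop (𝓝 0) := by
    have h1 := ((tendsto_pow_atTop_nhds_zero_of_lt_one (by norm_num : (0 : ℝ) ≤ 1 / 2)
      (by norm_num)).comp hK).const_mul (3 : ℝ)
    have h2 := ((h1.add hE).add ((hs.pow 2).const_mul |C|)).add (hv.const_mul |t|)
    simpa using h2
  refine squeeze_zero' (Eventually.of_forall fun N => dist_nonneg) ?_ herr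
  filter_upwards [hcount, hs.abs.eventually_le_const (show |(0 : ℝ)| < 1 by simp),
    hx.eventually_gt_atTop 0, hratio.eventually_le_const (show (1 : ℝ) < 2 by norm_num)]
    with N ⟨hS, hcnt⟩ hs1 hN hLx
  obtain ⟨w, hwdef⟩ : ∃ w : ℂ, w = Complex.exp ((s N : ℂ) * Complex.I) - 1 := ⟨_, rfl⟩
  have hw1 : ‖1 + w‖ ≤ 1 := by rw [hwdef, add_sub_cancel, Complex.norm_exp_ofReal_mul_I]
  have hws : ‖w‖ ≤ |s N| := by
    rw [hwdef, mul_comm, ← Real.norm_eq_abs]
    exact Real.norm_exp_I_mul_ofReal_sub_one_le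
  obtain ⟨g, hg⟩ : ∃ g : ℕ → ℕ, g = fun p => ((P N).filter (· ∣ f p)).card := ⟨_, rfl⟩
  obtain ⟨z, hz⟩ : ∃ z : ℂ, z = ∑ p ∈ S N,
      Complex.exp ((s N * ((g p : ℝ) - L N) : ℝ) * Complex.I) := ⟨_, rfl⟩
  -- from `v` to the count
  have hA : ‖PointEK.charAvg (S N) (v N) (x N) t - z / ((S N).card : ℂ)‖ ≤
      |t| * ((∑ p ∈ S N, |v N p - ((g p : ℝ) - L N)|) / ((S N).card * Real.sqrt (x N))) := by
    have e : |t| * ((∑ p ∈ S N, |v N p - ((g p : ℝ) - L N)|) /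
        ((S N).card * Real.sqrt (x N))) =
        (∑ p ∈ S N, |s N| * |v N p - ((g p : ℝ) - L N)|) / (S N).card := by
      rw [hsdef, abs_div, abs_of_nonneg (Real.sqrt_nonneg _), ← mul_sum]
      ring
    rw [e, PointEK.charAvg, hz, ← sub_div, ← sum_sub_distrib, norm_div, Complex.norm_natCast]
    refine div_le_div_of_nonneg_right ((norm_sum_le _ _).trans (sum_le_sum fun p _ => ?_))
      (Nat.cast_nonneg _)
    refine (PointEK.norm_exp_sub_exp_le _ _).trans (le_of_eq ?_)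
    rw [← abs_mul]
    congr 1
    rw [hsdef]
    ring
  -- the model
  have hK6 : 6 * (‖w‖ * ∑ q ∈ P N, c q) ≤ PointEK.truncLen t (x N) := by
    refine le_trans ?_ (Nat.le_ceil _)
    rw [show ∑ q ∈ P N, c q = L N by rw [hLdef]]
    have h1 := mul_le_mul_of_nonneg_right hws (hL0 N)
    have h2 : |s N| * L N ≤ 2 * |t| * Real.sqrt (x N) := by
      rw [hsdef, abs_div, abs_of_nonneg (Real.sqrt_nonneg _), div_mul_eq_mul_div,
        div_le_iff₀ (Real.sqrt_pos.2 hN), mul_assoc (2 * |t|), Real.mul_self_sqrt hN.le]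
      rw [div_le_iff₀ hN] at hLx
      have := mul_le_mul_of_nonneg_left hLx (abs_nonneg t)
      linarith
    linarith [Real.sqrt_nonneg (x N)]
  have hE0 : 0 ≤ E N := (sum_nonneg fun T _ => abs_nonneg _).trans (hcnt 0 (Nat.zero_le _))
  have hM := norm_avg_pow_sub_le (fun q hq => (hc N q hq).1) hw1 hK6 hS hE0 hcnt
  have hP := PointEK.norm_prod_sub_exp_le (hc N) hw1 (hws.trans hs1)
  obtain ⟨Y, hY⟩ : ∃ Y : ℂ, Y = Complex.exp ((-(s N * L N) : ℝ) * Complex.I) := ⟨_, rfl⟩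
  have hY1 : ‖Y‖ = 1 := hY ▸ Complex.norm_exp_ofReal_mul_I _
  have ez : z / ((S N).card : ℂ) = Y * ((∑ p ∈ S N, (1 + w) ^ g p) / ((S N).card : ℂ)) := by
    rw [mul_div_assoc', hz, mul_sum, hY]
    congr 1
    refine sum_congr rfl fun p _ => ?_
    rw [hwdef, add_sub_cancel, ← Complex.exp_nat_mul, ← Complex.exp_add]
    congr 1
    push_cast
    ring
  have em : Complex.exp ((Complex.exp (((t / Real.sqrt (x N) : ℝ) : ℂ) * Complex.I) - 1) *
      (L N : ℂ) - ((t / Real.sqrt (x N) * L N : ℝ) : ℂ) * Complex.I) =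
      Y * Complex.exp (w * ((∑ q ∈ P N, c q : ℝ) : ℂ)) := by
    rw [show ∑ q ∈ P N, c q = L N by rw [hLdef], show t / Real.sqrt (x N) = s N by rw [hsdef],
      ← hwdef, hY, ← Complex.exp_add]
    congr 1
    push_cast
    ring
  rw [dist_eq_norm, norm_sub_rev, em]
  have hC : ‖z / ((S N).card : ℂ) - Y * Complex.exp (w * ((∑ q ∈ P N, c q : ℝ) : ℂ))‖ ≤
      3 * (1 / 2 : ℝ) ^ PointEK.truncLen t (x N) + ((PointEK.truncLen t (x N) : ℝ) + 1) *
        2 ^ PointEK.truncLen t (x N) * E N / (S N).card + |C| * s N ^ 2 := by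
    rw [ez, ← mul_sub, norm_mul, hY1, one_mul, hg]
    refine (norm_sub_le_norm_sub_add_norm_sub _ _ _).trans (add_le_add hM (hP.trans ?_))
    rw [mul_comm |C|, ← sq_abs (s N)]
    exact mul_le_mul (pow_le_pow_left₀ (norm_nonneg _) hws 2) ((hsq N).trans (le_abs_self C))
      (sum_nonneg fun q _ => sq_nonneg _) (sq_nonneg _)
  rw [hg, hLdef] at hA
  have h5 := norm_sub_le_norm_sub_add_norm_sub (PointEK.charAvg (S N) (v N) (x N) t)
    (z / ((S N).card : ℂ)) (Y * Complex.exp (w * ((∑ q ∈ P N, c q : ℝ) : ℂ)))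
  linarith

end FA.ShiftedPrimeOmega

end
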