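import Fermat.Agent.PrimeTwoSquares.Ranges

/-!
# The theorem of Bombieri and Vinogradov for the number of primes

By Abel summation the number of primes `≤ x` in a class differs from `∑_{2 ≤ n ≤ x} 1 / log n`
divided by `φ q` by at most `4` times the largest error of `θ`, so the average over the moduli is
as small as for `θ`.
-/

set_option autoImplicit false

noncomputable section

namespace FA.ShiftedPrimeOmega

open Finset
open FA.PrimeTwoSquares (thetaClass)

/-- The primes `≤ y` in the class `c` modulo `q`. -/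
def primeClassCount (y q : ℕ) (c : ℤ) : ℕ :=
  ((Icc 1 y).filter fun p : ℕ => p.Prime ∧ (q : ℤ) ∣ c - p).card

/-- `∑_{2 ≤ n ≤ x} 1 / log n`. -/
def recipLogSum (x : ℕ) : ℝ := ∑ n ∈ Icc 2 x, (Real.log n)⁻¹

/-- **Abel summation against a decreasing weight.** -/
theorem abs_sum_diff_mul_le {Δ w : ℕ → ℝ} {M : ℝ} {N : ℕ} (hN : 2 ≤ N)
    (hΔ : ∀ n ≤ N, |Δ n| ≤ M) (hw : ∀ n, 2 ≤ n → w (n + 1) ≤ w n) (hwN : 0 ≤ w N) :
    |∑ n ∈ Icc 2 N, (Δ n - Δ (n - 1)) * w n| ≤ 2 * M * w 2 := by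
  have hM : 0 ≤ M := (abs_nonneg _).trans (hΔ 0 (Nat.zero_le N))
  have key : ∀ m, 2 ≤ m → m ≤ N →
      |(∑ n ∈ Icc 2 m, (Δ n - Δ (n - 1)) * w n) - Δ m * w m + Δ 1 * w 2| ≤ M * (w 2 - w m) ∧
        w m ≤ w 2 := by
    intro m hm
    induction m, hm using Nat.le_induction with
    | base =>
      intro _
      rw [Icc_self, sum_singleton]
      simp [sub_mul]
    | succ m hm ih =>
      intro hmN
      obtain ⟨h1, h2⟩ := ih (by omega)
      refine ⟨?_, (hw m hm).trans h2⟩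
      rw [sum_Icc_succ_top (by omega), Nat.add_sub_cancel]
      have h3 := mul_le_mul_of_nonneg_right (hΔ m (by omega)) (sub_nonneg.2 (hw m hm))
      rw [show (∑ n ∈ Icc 2 m, (Δ n - Δ (n - 1)) * w n) + (Δ (m + 1) - Δ m) * w (m + 1) -
          Δ (m + 1) * w (m + 1) + Δ 1 * w 2 =
        ((∑ n ∈ Icc 2 m, (Δ n - Δ (n - 1)) * w n) - Δ m * w m + Δ 1 * w 2) +
          Δ m * (w m - w (m + 1)) by ring]
      refine (abs_add_le _ _).trans ?_
      rw [abs_mul, abs_of_nonneg (sub_nonneg.2 (hw m hm))]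
      linarith
  obtain ⟨h1, h2⟩ := key N hN le_rfl
  obtain ⟨hN1, hN2⟩ := abs_le.1 (hΔ N le_rfl)
  obtain ⟨h11, h12⟩ := abs_le.1 (hΔ 1 (by omega))
  have hw2 : 0 ≤ w 2 := hwN.trans h2
  obtain ⟨a1, a2⟩ := abs_le.1 h1
  have b1 := mul_le_mul_of_nonneg_right hN1 hwN
  have b2 := mul_le_mul_of_nonneg_right hN2 hwN
  have b3 := mul_le_mul_of_nonneg_right h11 hw2
  have b4 := mul_le_mul_of_nonneg_right h12 hw2
  rw [abs_le]
  constructor <;> linarith

/-- The number of the primes against the errors of `θ`. -/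
theorem abs_primeClassCount_sub_le {N q : ℕ} {c : ℤ} (hN : 2 ≤ N) {M : ℝ}
    (hM : ∀ n ≤ N, |thetaClass n q c - (n : ℝ) / q.totient| ≤ M) :
    |(primeClassCount N q c : ℝ) - recipLogSum N / q.totient| ≤ 4 * M := by
  have hM0 : 0 ≤ M := (abs_nonneg _).trans (hM 0 (Nat.zero_le N))
  have h := abs_sum_diff_mul_le (w := fun n : ℕ => (Real.log n)⁻¹) hN hM (fun n hn => ?_)
    (inv_nonneg.2 (Real.log_natCast_nonneg N))
  · have hlog2 : (Real.log ((2 : ℕ) : ℝ))⁻¹ ≤ 2 := by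
      rw [inv_le_comm₀ (Real.log_pos (by norm_num)) two_pos]
      norm_num
      linarith [Real.log_two_gt_d9]
    refine le_trans (le_of_eq_of_le (congrArg _ ?_) h)
      ((mul_le_mul_of_nonneg_left hlog2 (by linarith)).trans (le_of_eq (by ring)))
    have e1 : (primeClassCount N q c : ℝ) =
        ∑ n ∈ Icc 2 N, if n.Prime ∧ (q : ℤ) ∣ c - n then (1 : ℝ) else 0 := by
      rw [primeClassCount, sum_boole, Nat.cast_inj]
      congr 1
      ext p
      simp only [mem_filter, mem_Icc]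
      exact ⟨fun h => ⟨⟨h.2.1.two_le, h.1.2⟩, h.2⟩, fun h => ⟨⟨by omega, h.1.2⟩, h.2⟩⟩
    rw [e1, recipLogSum, sum_div, ← sum_sub_distrib]
    refine sum_congr rfl fun n hn => ?_
    rw [mem_Icc] at hn
    obtain ⟨m, rfl⟩ : ∃ m, n = m + 1 := ⟨n - 1, by omega⟩
    have hl : Real.log ((m + 1 : ℕ) : ℝ) ≠ 0 :=
      (Real.log_pos (Nat.one_lt_cast.2 (by omega))).ne'
    rw [Nat.add_sub_cancel, thetaClass, thetaClass, sum_filter, sum_filter,
      sum_Icc_succ_top (by omega)]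
    split_ifs
    · rw [Nat.cast_add_one] at hl ⊢
      field_simp
      ring
    · rw [Nat.cast_add_one] at hl ⊢
      field_simp
      ring
  · refine inv_anti₀ (Real.log_pos (Nat.one_lt_cast.2 (by omega))) ?_
    exact Real.log_le_log (Nat.cast_pos.2 (by omega)) (Nat.cast_le.2 (Nat.le_succ n))

/-- **Bombieri and Vinogradov for the number of primes.** -/
theorem exists_bv_count (A : ℕ) : ∃ (B : ℕ) (C : ℝ), 0 < C ∧ ∀ x : ℕ, 3 ≤ x →
    ∀ Q : ℕ, (Q : ℝ) ≤ Real.sqrt x / Real.log x ^ B → ∀ c : ℤ,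
      ∑ q ∈ (Icc 1 Q).filter (fun q : ℕ => Int.gcd c q = 1),
        |(primeClassCount x q c : ℝ) - recipLogSum x / q.totient| ≤
          C * ((x : ℝ) / Real.log x ^ A) := by
  obtain ⟨B, C, hC, h⟩ := PrimeTwoSquares.exists_bv_class A
  refine ⟨B, 4 * C, by positivity, fun x hx Q hQ c => ?_⟩
  have hy : ∀ q : ℕ, ∃ y, y ≤ x ∧ ∀ n ≤ x, |thetaClass n q c - (n : ℝ) / q.totient| ≤
      |thetaClass y q c - (y : ℝ) / q.totient| := fun q => by
    obtain ⟨y, hy, hmax⟩ := exists_max_image (range (x + 1))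
      (fun n : ℕ => |thetaClass n q c - (n : ℝ) / q.totient|) ⟨0, by simp⟩
    exact ⟨y, Nat.lt_succ_iff.1 (mem_range.1 hy),
      fun n hn => hmax n (mem_range.2 (Nat.lt_succ_of_le hn))⟩
  choose y hy hmax using hy
  have h1 := h x hx Q hQ y (fun _ => c) hy
  refine (sum_le_sum fun q _ => abs_primeClassCount_sub_le (by omega) (hmax q)).trans ?_
  rw [← mul_sum]
  exact (mul_le_mul_of_nonneg_left h1 (by norm_num)).trans (le_of_eq (by ring))

end FA.ShiftedPrimeOmega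

end
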